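import Mathlib
import Fermat.Agent.S17.Contract
import Fermat.Agent.S17.R.Riemann
import Fermat.Agent.S17.R.ReducedCore
import Fermat.Agent.S30.HeckeInputs

/-!
# Program MW (statement S17): the genus-zero door

The frozen statement S17 includes the primes `N = 5, 7, 13`, for which the modular curve has
genus zero, i.e. Riemann's constant `R.gR` of its function field is `0`.  In that case every
divisor of degree zero is principal (Riemann's inequality), so `JZero N` is the trivial group and
every clause of the contract (`Divisible N`, `WeakMW N`, `HeightDescent N`) holds for a trivial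
reason.

* `mem_principal_of_degree_eq_zero`, `pic0_subsingleton` : the level-free statement;
* `jzero_subsingleton`, `divisible_of_gR_eq_zero`, `weakMW_of_gR_eq_zero`,
  `heightDescent_of_gR_eq_zero`, `fg_of_gR_eq_zero` : the contract clauses at genus zero;
* `divisible_of_pos`, `weakMW_of_pos`, `heightDescent_of_pos`, `fg_of_pos` : the doors - a clause
  of the contract may be proved under the extra hypothesis `0 < R.gR _ _`.
-/

set_option autoImplicit false

open AlgebraicCurve ModularCurve

namespace Fermat.Agent.S17.F.GenusZero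

section Curve

variable {K F : Type*} [Field K] [Field F] [Algebra K F]
variable [IsAlgClosed K] [CharZero K] [Algebra.EssFiniteType K F]

/-- Genus zero: every divisor of degree zero is principal. -/
theorem mem_principal_of_degree_eq_zero (htr : Algebra.trdeg K F = 1) (hg : R.gR K F = 0)
    {D : Divisor K F} (hD : Divisor.degree D = 0) :
    D ∈ Divisor.principal (K := K) (F := F) := by
  have h1 := R.riemann_inequality htr D
  rw [hD, hg] at h1
  have h2 : 0 < Module.finrank K ↥(riemannRochSpace D) := by
    have h3 : (1 : ℤ) ≤ (Module.finrank K ↥(riemannRochSpace D) : ℤ) := by simpa using h1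
    exact_mod_cast h3
  obtain ⟨f, hf⟩ : ∃ f : ↥(riemannRochSpace D), f ≠ 0 := by
    by_contra hcon
    have hall : ∀ f : ↥(riemannRochSpace D), f = 0 := fun f => by
      by_contra hf
      exact hcon ⟨f, hf⟩
    have : Subsingleton ↥(riemannRochSpace D) :=
      ⟨fun a b => (hall a).trans (hall b).symm⟩
    rw [Module.finrank_zero_of_subsingleton] at h2
    exact lt_irrefl _ h2
  have hf0 : (f : F) ≠ 0 := fun h => hf (Subtype.ext h)
  have hE : 0 ≤ D + R.divOf K (f : F) := R.add_divOf_nonneg htr hf0 f.2
  have hdeg : Divisor.degree (D + R.divOf K (f : F)) = 0 := by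
    rw [map_add, hD, R.degree_divOf htr, add_zero]
  have h0 : D + R.divOf K (f : F) = 0 := R.ReducedCore.eq_zero_of_nonneg_of_degree_eq_zero htr hE hdeg
  have hDeq : D = R.divOf K ((f : F)⁻¹) := by
    rw [R.divOf_inv htr]
    exact eq_neg_of_add_eq_zero_left h0
  rw [hDeq]
  exact R.divOf_mem_principal htr (inv_ne_zero hf0)

/-- Genus zero: the group of divisor classes of degree zero is trivial. -/
theorem pic0_subsingleton (htr : Algebra.trdeg K F = 1) (hg : R.gR K F = 0) :
    Subsingleton (Pic0 K F) := by
  have key : ∀ z : Pic0 K F, z = 0 := by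
    intro z
    obtain ⟨D, rfl⟩ := Pic0.mk_surjective z
    have hD : Divisor.degree (D : Divisor K F) = 0 := Divisor.mem_degZero.mp D.2
    have hp := mem_principal_of_degree_eq_zero htr hg hD
    exact (QuotientAddGroup.eq_zero_iff D).mpr (AddSubgroup.mem_addSubgroupOf.mpr hp)
  exact ⟨fun x y => (key x).trans (key y).symm⟩

end Curve

section Level

variable (N : ℕ) [NeZero N]

/-- Genus zero: `JZero N` is trivial. -/
theorem jzero_subsingleton
    (hg : R.gR (AlgebraicClosure ℚ) ↥(modularFunctionFieldBar N) = 0) :
    Subsingleton (JZero N) :=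
  pic0_subsingleton (Fermat.Agent.S30.HeckeInputs.trdeg_bar N) hg

/-- Genus zero: the Mordell-Weil group is trivial. -/
theorem mw_subsingleton
    (hg : R.gR (AlgebraicClosure ℚ) ↥(modularFunctionFieldBar N) = 0) :
    Subsingleton ↥(MW N) := by
  have := jzero_subsingleton N hg
  exact ⟨fun a b => Subtype.ext (Subsingleton.elim _ _)⟩

/-- Genus zero: strand D's clause. -/
theorem divisible_of_gR_eq_zero
    (hg : R.gR (AlgebraicClosure ℚ) ↥(modularFunctionFieldBar N) = 0) : Divisible N := by
  have := jzero_subsingleton N hg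
  exact ⟨0, fun l _ _ x => ⟨0, Subsingleton.elim _ _⟩⟩

/-- Genus zero: strand W's clause. -/
theorem weakMW_of_gR_eq_zero
    (hg : R.gR (AlgebraicClosure ℚ) ↥(modularFunctionFieldBar N) = 0) : WeakMW N := by
  have := mw_subsingleton N hg
  exact ⟨0, fun l _ _ => inferInstance⟩

/-- Genus zero: strand H's clause. -/
theorem heightDescent_of_gR_eq_zero
    (hg : R.gR (AlgebraicClosure ℚ) ↥(modularFunctionFieldBar N) = 0) : HeightDescent N := by
  have := mw_subsingleton N hg
  intro L₀
  obtain ⟨l, hle, hl⟩ := Nat.exists_infinite_primes L₀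
  exact ⟨l, hl, hle, fun _ => 0, ⟨fun B => Set.toFinite _,
    ⟨0, 1, 0, fun _ => 0, le_refl 0, zero_lt_one, fun g x => by simp, fun x => by simp⟩⟩⟩

/-- Genus zero: the frozen statement. -/
theorem fg_of_gR_eq_zero
    (hg : R.gR (AlgebraicClosure ℚ) ↥(modularFunctionFieldBar N) = 0) :
    AddGroup.FG ↥(FixedPoints.addSubgroup ((AlgebraicClosure ℚ) ≃ₐ[ℚ] (AlgebraicClosure ℚ))
      (JZero N)) := by
  have : Subsingleton ↥(FixedPoints.addSubgroup
      ((AlgebraicClosure ℚ) ≃ₐ[ℚ] (AlgebraicClosure ℚ)) (JZero N)) := mw_subsingleton N hg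
  infer_instance

/-- The door for strand D: `Divisible N` may be proved for positive genus only. -/
theorem divisible_of_pos
    (h : 0 < R.gR (AlgebraicClosure ℚ) ↥(modularFunctionFieldBar N) → Divisible N) :
    Divisible N := by
  rcases Nat.eq_zero_or_pos (R.gR (AlgebraicClosure ℚ) ↥(modularFunctionFieldBar N)) with h0 | h1
  · exact divisible_of_gR_eq_zero N h0
  · exact h h1

/-- The door for strand W: `WeakMW N` may be proved for positive genus only. -/
theorem weakMW_of_pos
    (h : 0 < R.gR (AlgebraicClosure ℚ) ↥(modularFunctionFieldBar N) → WeakMW N) :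
    WeakMW N := by
  rcases Nat.eq_zero_or_pos (R.gR (AlgebraicClosure ℚ) ↥(modularFunctionFieldBar N)) with h0 | h1
  · exact weakMW_of_gR_eq_zero N h0
  · exact h h1

/-- The door for strand H: `HeightDescent N` may be proved for positive genus only. -/
theorem heightDescent_of_pos
    (h : 0 < R.gR (AlgebraicClosure ℚ) ↥(modularFunctionFieldBar N) → HeightDescent N) :
    HeightDescent N := by
  rcases Nat.eq_zero_or_pos (R.gR (AlgebraicClosure ℚ) ↥(modularFunctionFieldBar N)) with h0 | h1
  · exact heightDescent_of_gR_eq_zero N h0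
  · exact h h1

/-- The door for the top file: the frozen statement may be proved for positive genus only. -/
theorem fg_of_pos
    (h : 0 < R.gR (AlgebraicClosure ℚ) ↥(modularFunctionFieldBar N) →
      AddGroup.FG ↥(FixedPoints.addSubgroup ((AlgebraicClosure ℚ) ≃ₐ[ℚ] (AlgebraicClosure ℚ))
        (JZero N))) :
    AddGroup.FG ↥(FixedPoints.addSubgroup ((AlgebraicClosure ℚ) ≃ₐ[ℚ] (AlgebraicClosure ℚ))
      (JZero N)) := by
  rcases Nat.eq_zero_or_pos (R.gR (AlgebraicClosure ℚ) ↥(modularFunctionFieldBar N)) with h0 | h1
  · exact fg_of_gR_eq_zero N h0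
  · exact h h1

end Level

end Fermat.Agent.S17.F.GenusZero
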